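import Fermat.Agent.Arith.Involution
import Fermat.Prelude.Def_GaloisRep_ComplexConjugation
import Mathlib.FieldTheory.IsAlgClosed.AlgebraicClosure

/-!
# Involutions in the absolute Galois group of `ℚ`

A nontrivial involution `c` of `AlgebraicClosure ℚ` inverts the roots of unity of odd prime order,
so that the mod `p` cyclotomic character takes the value `-1` at it.
-/

set_option autoImplicit false

namespace Fermat.Agent.EC.Rep

local notation "Q̄" => AlgebraicClosure ℚ
local notation "GQ" => AlgebraicClosure ℚ ≃ₐ[ℚ] AlgebraicClosure ℚ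

variable {c : AlgebraicClosure ℚ ≃ₐ[ℚ] AlgebraicClosure ℚ}

theorem involution_apply_apply (hc : c * c = 1) (x : Q̄) : c (c x) = x := by
  rw [← AlgEquiv.mul_apply, hc, AlgEquiv.one_apply]

/-- The cyclotomic character at a nontrivial involution is `-1`. -/
theorem modularCyclotomicCharacter_involution (hc : c * c = 1) (hne : c ≠ 1) {p : ℕ}
    [Fact p.Prime] (hp2 : p ≠ 2) (hn : Nat.card (rootsOfUnity p Q̄) = p) :
    ((modularCyclotomicCharacter Q̄ hn (c : Q̄ ≃+* Q̄) : (ZMod p)ˣ) : ZMod p) = -1 := by
  have hp : p.Prime := Fact.out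
  set u := modularCyclotomicCharacter Q̄ hn (c : Q̄ ≃+* Q̄) with hu
  have hu2 : u * u = 1 := by
    rw [hu, ← map_mul]
    convert map_one (modularCyclotomicCharacter Q̄ hn) using 2
    ext x
    exact involution_apply_apply hc x
  have h2 : (u : ZMod p) * u = 1 := by rw [← Units.val_mul, hu2, Units.val_one]
  refine (mul_self_eq_one_iff.mp h2).resolve_left fun h1 => ?_
  obtain ⟨ζ, hζ⟩ := HasEnoughRootsOfUnity.exists_primitiveRoot Q̄ p
  have hspec := modularCyclotomicCharacter.spec Q̄ hn (c : Q̄ ≃+* Q̄)
    (t := (hζ.isUnit hp.ne_zero).unit) (by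
      rw [mem_rootsOfUnity]
      exact Units.ext (by simpa using hζ.pow_eq_one))
  rw [← hu, h1, ZMod.val_one, pow_one] at hspec
  exact Arith.involution_map_root_ne (c := (c : Q̄ →+* Q̄)) (involution_apply_apply hc)
    (by by_contra! h; exact hne (AlgEquiv.ext h)) (hp.odd_of_ne_two hp2) hp.one_lt hζ
    (by simpa using hspec)

theorem complexConjugation_ne_one : (complexConjugation : GQ) ≠ 1 := by
  intro h
  obtain ⟨i, hi⟩ : ∃ i : Q̄, -1 = i * i := IsAlgClosed.exists_eq_mul_self _
  have h1 := complexEmbedding_complexConjugation i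
  rw [h, AlgEquiv.one_apply] at h1
  have h2 : complexEmbedding i * complexEmbedding i = -1 := by
    rw [← map_mul, ← hi, map_neg, map_one]
  have h3 : (complexEmbedding i).im = 0 := Complex.conj_eq_iff_im.mp h1.symm
  have h4 := congrArg Complex.re h2
  simp [h3] at h4
  nlinarith [mul_self_nonneg (complexEmbedding i).re]

end Fermat.Agent.EC.Rep
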