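import Fermat.Agent.Arith.Minkowski
import Fermat.Agent.Arith.RootsOfUnity
import Mathlib.NumberTheory.LSeries.PrimesInAP

/-!
# The mod `p` cyclotomic character on an inertia group over `p`

The character `ω : Gal(ℚ̄/ℚ) → (ZMod p)ˣ` is surjective on every inertia group over `p`.
-/

set_option autoImplicit false

noncomputable section

namespace Fermat.Agent.EC.Rep

open Fermat.Agent.Arith
open scoped Pointwise

variable {p : ℕ} [Fact p.Prime]

theorem cyclotomicHom_eq_one_of_inertia {q : ℕ} (hq : q.Prime) (hqp : q ≠ p)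
    {A : ValuationSubring QBar} (hA : A.LiesOverPrime q) {σ : GQ}
    (hσ : σ ∈ A.inertiaSubgroupIn ℚ) : cyclotomicHom p σ = 1 :=
  cyclotomicHom_inertia hA hq hσ
    fun h => hqp ((Nat.prime_dvd_prime_iff_eq hq Fact.out).mp h)

theorem cyclotomicHom_surjective : Function.Surjective (cyclotomicHom p) := by
  intro a
  obtain ⟨ℓ, hℓp, hℓ, hℓa⟩ :=
    Nat.forall_exists_prime_gt_and_eq_mod (q := p) (a := (a : ZMod p)) a.isUnit p
  obtain ⟨A, hA⟩ := exists_liesOverPrime hℓ
  obtain ⟨σ, hσ⟩ := exists_isFrobeniusAt hA hℓ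
  refine ⟨σ, Units.ext ?_⟩
  rw [cyclotomicHom_frobenius hA hℓ hσ
    fun h => absurd (Nat.le_of_dvd (Fact.out : p.Prime).pos h) (not_le.mpr hℓp), hℓa]

/-- The cyclotomic character is surjective on every inertia group over `p`. -/
theorem exists_mem_inertia_cyclotomicHom_eq {A : ValuationSubring QBar} (hA : A.LiesOverPrime p)
    (a : (ZMod p)ˣ) : ∃ σ ∈ A.inertiaSubgroupIn ℚ, cyclotomicHom p σ = a := by
  set T : Subgroup (ZMod p)ˣ := (A.inertiaSubgroupIn ℚ).map (cyclotomicHom p)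
  obtain ⟨L, hLfin, hL⟩ := cyclotomicHom_factors p
  have hopen : IsOpen ((T.comap (cyclotomicHom p) : Subgroup GQ) : Set GQ) :=
    Subgroup.isOpen_mono (fun σ hσ => by
      rw [Subgroup.mem_comap, hL σ fun x hx =>
        (IntermediateField.mem_fixingSubgroup_iff _ _).mp hσ x hx]
      exact T.one_mem) (IntermediateField.fixingSubgroup_isOpen L)
  have htop : T.comap (cyclotomicHom p) = ⊤ := by
    refine eq_top_of_inertia_le _ hopen fun q hq B hB σ hσ => ?_
    rw [Subgroup.mem_comap]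
    by_cases hqp : q = p
    · subst hqp
      obtain ⟨g, rfl⟩ := exists_smul_eq hA hB hq
      have h' : g * (g⁻¹ * σ * g) * g⁻¹ ∈ (g • A).inertiaSubgroupIn ℚ := by group; exact hσ
      refine ⟨_, mem_inertia_smul_iff.mp h', ?_⟩
      rw [map_mul, map_mul, map_inv, mul_right_comm, inv_mul_cancel, one_mul]
    · rw [cyclotomicHom_eq_one_of_inertia hq hqp hB hσ]
      exact T.one_mem
  obtain ⟨σ, rfl⟩ := cyclotomicHom_surjective a
  obtain ⟨τ, hτ, he⟩ := (htop ▸ Subgroup.mem_top σ : σ ∈ T.comap (cyclotomicHom p))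
  exact ⟨τ, hτ, he⟩

end Fermat.Agent.EC.Rep
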