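import Fermat.Prelude.Def_GaloisRep_Residual
import Mathlib.LinearAlgebra.Matrix.ToLin
import Mathlib.LinearAlgebra.Charpoly.ToMatrix
import Mathlib.LinearAlgebra.Matrix.Charpoly.Coeff

/-!
# Odd irreducible two-dimensional representations

An irreducible odd representation in odd characteristic stays irreducible over every extension
field, and its trace is not identically `1 + det`.
-/

set_option autoImplicit false

open scoped TensorProduct
open Module

namespace Fermat.Agent.EC.Rep

local notation "GQ" => AlgebraicClosure ℚ ≃ₐ[ℚ] AlgebraicClosure ℚ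

variable {k : Type} [Field k] (ρ : ResidualGaloisRep k) {c : GQ}

/-- An eigenbasis of an odd involution. -/
theorem exists_eigenbasis_of_involution {V : Type} [AddCommGroup V] [Module k V]
    (hrk : finrank k V = 2) (h2 : (2 : k) ≠ 0) (T : Module.End k V) (hTT : ∀ v, T (T v) = v)
    (hdet : LinearMap.det T = -1) :
    ∃ b : Basis (Fin 2) k V, T (b 0) = b 0 ∧ T (b 1) = -b 1 := by
  obtain ⟨u, hu⟩ : ∃ u, u + T u ≠ 0 := by
    by_contra h
    push Not at h
    have hT' : T = (-1 : k) • LinearMap.id := LinearMap.ext fun v => by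
      simp [eq_neg_of_add_eq_zero_right (h v)]
    rw [hT', LinearMap.det_smul, LinearMap.det_id, hrk] at hdet
    exact h2 (by linear_combination hdet)
  obtain ⟨w, hw⟩ : ∃ w, w - T w ≠ 0 := by
    by_contra h
    push Not at h
    have hT' : T = LinearMap.id := LinearMap.ext fun v => (sub_eq_zero.mp (h v)).symm
    rw [hT', LinearMap.det_id] at hdet
    exact h2 (by linear_combination hdet)
  have e0 : T (u + T u) = u + T u := by rw [map_add, hTT, add_comm]
  have e1 : T (w - T w) = -(w - T w) := by rw [map_sub, hTT, neg_sub]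
  have hli : LinearIndependent k ![u + T u, w - T w] := by
    rw [LinearIndependent.pair_iff]
    intro s t hst
    have hst' := congrArg T hst
    rw [map_add, map_smul, map_smul, e0, e1, map_zero, smul_neg] at hst'
    have h3 : (2 * s) • (u + T u) = 0 := by
      rw [mul_smul, two_smul]; linear_combination (norm := module) hst + hst'
    have hs : s = 0 := (mul_eq_zero.mp ((smul_eq_zero.mp h3).resolve_right hu)).resolve_left h2
    rw [hs, zero_smul, zero_add] at hst
    exact ⟨hs, (smul_eq_zero.mp hst).resolve_right hw⟩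
  refine ⟨basisOfLinearIndependentOfCardEqFinrank hli (by simp [hrk]), ?_, ?_⟩
  · simpa using e0
  · simpa using e1

/-- An eigenbasis of the image of an odd involution. -/
theorem exists_involution_basis (h2 : (2 : k) ≠ 0) (hc : c * c = 1)
    (hdet : LinearMap.det (ρ.ρ c) = -1) :
    ∃ b : Basis (Fin 2) k ρ.V, ρ.ρ c (b 0) = b 0 ∧ ρ.ρ c (b 1) = -b 1 :=
  exists_eigenbasis_of_involution ρ.finrank_eq h2 _ (fun v => by
    rw [← Module.End.mul_apply, ← map_mul, hc, map_one, Module.End.one_apply]) hdet

variable {ρ}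

theorem stable_span_singleton_of_repr_eq_zero (b : Basis (Fin 2) k ρ.V) {i j : Fin 2}
    (hij : i ≠ j) (h : ∀ σ : GQ, b.repr (ρ.ρ σ (b i)) j = 0) (hirr : ρ.IsIrreducible) : False := by
  have hmem : ∀ v, b.repr v j = 0 → v ∈ Submodule.span k {b i} := fun v hv => by
    rw [Submodule.mem_span_singleton]
    refine ⟨b.repr v i, ?_⟩
    conv_rhs => rw [← b.sum_repr v, Fin.sum_univ_two]
    fin_cases i <;> fin_cases j <;> simp_all
  rcases hirr (Submodule.span k {b i}) (fun σ x hx => by
    obtain ⟨a, rfl⟩ := Submodule.mem_span_singleton.mp hx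
    rw [map_smul]
    exact Submodule.smul_mem _ a (hmem _ (h σ))) with hW | hW
  · exact b.ne_zero i (Submodule.span_singleton_eq_bot.mp hW)
  · obtain ⟨a, ha⟩ := Submodule.mem_span_singleton.mp
      (hW ▸ Submodule.mem_top : b j ∈ Submodule.span k {b i})
    have := congrArg (fun v => b.repr v j) ha
    simp [Finsupp.single_eq_of_ne hij.symm] at this

/-- An odd irreducible representation stays irreducible over every extension field. -/
theorem baseChange_stable_eq_bot_or_top (h2 : (2 : k) ≠ 0) (hc : c * c = 1)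
    (hdet : LinearMap.det (ρ.ρ c) = -1) (hirr : ρ.IsIrreducible) (K : Type) [Field K]
    [Algebra k K] : (ρ.baseChange K).IsIrreducible := by
  obtain ⟨b, hb0, hb1⟩ := exists_involution_basis ρ h2 hc hdet
  intro W hW
  set f : Basis (Fin 2) K (K ⊗[k] ρ.V) := b.baseChange K
  have hf : ∀ i, f i = (1 : K) ⊗ₜ b i := fun i => b.baseChange_apply K i
  have hρ : ∀ (σ : GQ) i, (ρ.baseChange K).ρ σ (f i) = (1 : K) ⊗ₜ ρ.ρ σ (b i) := fun σ i => by
    rw [hf]; exact LinearMap.baseChange_tmul _ _ _
  have hc0 : (ρ.baseChange K).ρ c (f 0) = f 0 := by rw [hρ, hb0, hf]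
  have hc1 : (ρ.baseChange K).ρ c (f 1) = -f 1 := by rw [hρ, hb1, hf, TensorProduct.tmul_neg]
  have h2K : (2 : K) ≠ 0 := by
    rw [← map_ofNat (algebraMap k K)]; simpa using h2
  have hsplit : ∀ v ∈ W, f.repr v 0 • f 0 ∈ W ∧ f.repr v 1 • f 1 ∈ W := by
    intro v hv
    have hTv := hW c v hv
    set x := f.repr v 0
    set y := f.repr v 1
    have hv' : v = x • f 0 + y • f 1 := by
      conv_lhs => rw [← f.sum_repr v, Fin.sum_univ_two]
    rw [hv', map_add, map_smul, map_smul, hc0, hc1, smul_neg] at hTv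
    rw [hv'] at hv
    constructor
    · have := W.smul_mem (2 : K)⁻¹ (W.add_mem hv hTv)
      rwa [show x • f 0 + y • f 1 + (x • f 0 + -(y • f 1)) = (2 : K) • x • f 0 by module,
        inv_smul_smul₀ h2K] at this
    · have := W.smul_mem (2 : K)⁻¹ (W.sub_mem hv hTv)
      rwa [show x • f 0 + y • f 1 - (x • f 0 + -(y • f 1)) = (2 : K) • y • f 1 by module,
        inv_smul_smul₀ h2K] at this
  have key : ∀ i j : Fin 2, i ≠ j → f i ∈ W → f j ∈ W := by
    intro i j hij hi
    by_contra hj
    refine stable_span_singleton_of_repr_eq_zero b hij (fun σ => ?_) hirr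
    by_contra hne
    have h1 := hsplit _ (hW σ (f i) hi)
    have hr : ∀ l, f.repr ((ρ.baseChange K).ρ σ (f i)) l =
        algebraMap k K (b.repr (ρ.ρ σ (b i)) l) := fun l => by
      rw [hρ, Module.Basis.baseChange_repr_tmul, Algebra.algebraMap_eq_smul_one]
    have hj' : algebraMap k K (b.repr (ρ.ρ σ (b i)) j) • f j ∈ W := by
      rw [← hr]
      fin_cases j <;> [exact h1.1; exact h1.2]
    refine hj ?_
    have := W.smul_mem (algebraMap k K (b.repr (ρ.ρ σ (b i)) j))⁻¹ hj'
    rwa [inv_smul_smul₀ (by simpa using hne)] at this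
  by_cases hWb : W = ⊥
  · exact Or.inl hWb
  right
  obtain ⟨v, hv, hv0⟩ := Submodule.exists_mem_ne_zero_of_ne_bot hWb
  obtain ⟨i, hi⟩ : ∃ i, f.repr v i ≠ 0 := by
    by_contra h
    push Not at h
    exact hv0 (f.ext_elem fun i => by rw [h i, map_zero, Finsupp.zero_apply])
  have hfi : f i ∈ W := by
    have := hsplit v hv
    have h' : f.repr v i • f i ∈ W := by fin_cases i <;> [exact this.1; exact this.2]
    have := W.smul_mem (f.repr v i)⁻¹ h'
    rwa [inv_smul_smul₀ hi] at this
  have hall : ∀ j, f j ∈ W := fun j => by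
    by_cases hij : i = j
    · exact hij ▸ hfi
    · exact key i j hij hfi
  rw [eq_top_iff, ← f.span_eq, Submodule.span_le]
  rintro _ ⟨j, rfl⟩
  exact hall j

/-- For an odd irreducible representation, a normal subgroup with abelian quotient and trivial
determinant contains an element of trace different from two. -/
theorem exists_trace_ne_two (h2 : (2 : k) ≠ 0) (hc : c * c = 1)
    (hdet : LinearMap.det (ρ.ρ c) = -1) (hirr : ρ.IsIrreducible) {A : Type*} [CommGroup A]
    (χ : GQ →* A) (hχ : ∀ σ, χ σ = 1 → LinearMap.det (ρ.ρ σ) = 1) :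
    ∃ σ : GQ, χ σ = 1 ∧ LinearMap.trace k ρ.V (ρ.ρ σ) ≠ 2 := by
  by_contra hno
  push Not at hno
  obtain ⟨b, hb0, hb1⟩ := exists_involution_basis ρ h2 hc hdet
  set M : GQ → Matrix (Fin 2) (Fin 2) k := fun σ => LinearMap.toMatrix b b (ρ.ρ σ) with hM
  have hmul : ∀ σ τ, M (σ * τ) = M σ * M τ := fun σ τ => by
    simp only [hM, map_mul, LinearMap.toMatrix_mul]
  have hone : M 1 = 1 := by simp [hM]
  have hMc : M c = !![1, 0; 0, -1] := by
    ext i j
    fin_cases i <;> fin_cases j <;> simp [hM, LinearMap.toMatrix_apply, hb0, hb1]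
  have hH : ∀ σ, χ σ = 1 → (M σ).trace = 2 ∧ (M σ).det = 1 := fun σ hσ => by
    simp only [hM, ← LinearMap.trace_eq_matrix_trace, LinearMap.det_toMatrix]
    exact ⟨hno σ hσ, hχ σ hσ⟩
  have hnorm : ∀ σ h, χ h = 1 → χ (σ * h * σ⁻¹) = 1 := fun σ h hh => by simp [hh]
  -- elements of the kernel are unipotent triangular
  have hshape : ∀ h, χ h = 1 → M h 0 0 = 1 ∧ M h 1 1 = 1 ∧ M h 0 1 * M h 1 0 = 0 := by
    intro h hh
    obtain ⟨ht, hd⟩ := hH h hh
    obtain ⟨ht2, -⟩ := hH (h * (c * h * c⁻¹)) (by rw [map_mul, hh, hnorm c h hh, one_mul])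
    rw [show c⁻¹ = c from inv_eq_of_mul_eq_one_right hc, hmul, hmul, hmul, hMc,
      Matrix.trace_fin_two] at ht2
    simp [Matrix.mul_apply, Matrix.vecMul, dotProduct, Fin.sum_univ_two] at ht2
    rw [Matrix.trace_fin_two] at ht
    rw [Matrix.det_fin_two] at hd
    have hbc : M h 0 1 * M h 1 0 = 0 :=
      mul_left_cancel₀ (mul_ne_zero h2 h2) (by
        linear_combination -ht2 - 2 * hd + (M h 0 0 + M h 1 1 + 2) * ht)
    have h00 : (M h 0 0 - 1) ^ 2 = 0 := by
      linear_combination (M h 0 0) * ht - hd - hbc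
    have e00 : M h 0 0 = 1 := sub_eq_zero.mp (pow_eq_zero_iff (two_ne_zero) |>.mp h00)
    exact ⟨e00, by linear_combination ht - e00, hbc⟩
  -- each of the two off diagonal entries vanishes on the kernel
  have htriv : ∀ i j : Fin 2, i ≠ j → ∀ h, χ h = 1 → M h i j = 0 := by
    intro i j hij h hh
    by_contra hne
    have hall : ∀ g, χ g = 1 → M g j i = 0 := by
      intro g hg
      obtain ⟨a0, a1, a2⟩ := hshape h hh
      obtain ⟨b0, b1, b2⟩ := hshape g hg
      have hij0 : M h j i = 0 := by
        fin_cases i <;> fin_cases j <;>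
          first | exact absurd rfl hij
                | exact (mul_eq_zero.mp a2).resolve_left hne
                | exact (mul_eq_zero.mp a2).resolve_right hne
      have ht := (hH (h * g) (by rw [map_mul, hh, hg, one_mul])).1
      rw [hmul, Matrix.trace_fin_two, Matrix.mul_apply, Matrix.mul_apply, Fin.sum_univ_two,
        Fin.sum_univ_two, a0, a1, b0, b1] at ht
      have hp : M h i j * M g j i = 0 := by
        fin_cases i <;> fin_cases j <;>
          first | exact absurd rfl hij
                | (simp only [Fin.zero_eta, Fin.mk_one] at hij0 ⊢; rw [hij0] at ht;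
                   linear_combination ht)
      exact (mul_eq_zero.mp hp).resolve_left hne
    -- the common fixed line is stable
    refine stable_span_singleton_of_repr_eq_zero b hij (fun σ => ?_) hirr
    have e : M h * M σ = M σ * M (σ⁻¹ * h * σ) := by
      rw [← hmul, ← hmul]; congr 1; group
    have e' := congrFun (congrFun e i) i
    obtain ⟨d0, d1, -⟩ := hshape (σ⁻¹ * h * σ) (by simpa using hnorm σ⁻¹ h hh)
    have hd : M (σ⁻¹ * h * σ) j i = 0 := hall _ (by simpa using hnorm σ⁻¹ h hh)
    obtain ⟨a0, a1, -⟩ := hshape h hh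
    have hp : M h i j * M σ j i = 0 := by
      rw [Matrix.mul_apply, Matrix.mul_apply, Fin.sum_univ_two, Fin.sum_univ_two] at e'
      fin_cases i <;> fin_cases j <;>
        first | exact absurd rfl hij
              | (simp only [Fin.zero_eta, Fin.mk_one] at hd e' ⊢; rw [hd, a0, d0] at e';
                 linear_combination e')
              | (simp only [Fin.zero_eta, Fin.mk_one] at hd e' ⊢; rw [hd, a1, d1] at e';
                 linear_combination e')
    have := (mul_eq_zero.mp hp).resolve_left hne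
    simpa [hM, LinearMap.toMatrix_apply] using this
  have hker : ∀ h, χ h = 1 → M h = 1 := fun h hh => by
    obtain ⟨e0, e1, -⟩ := hshape h hh
    ext i j
    fin_cases i <;> fin_cases j
    · simpa using e0
    · simpa using htriv 0 1 (by decide) h hh
    · simpa using htriv 1 0 (by decide) h hh
    · simpa using e1
  refine stable_span_singleton_of_repr_eq_zero b (i := 0) (j := 1) (by decide) (fun σ => ?_) hirr
  have e : M (c * σ) = M (σ * c) := by
    have := hker ((c * σ) * (σ * c)⁻¹) (by
      rw [map_mul, map_inv, map_mul, map_mul, mul_comm (χ σ), mul_inv_cancel])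
    calc M (c * σ) = M ((c * σ) * (σ * c)⁻¹) * M (σ * c) := by rw [← hmul, inv_mul_cancel_right]
      _ = _ := by rw [this, one_mul]
  rw [hmul, hmul, hMc] at e
  have e' := congrFun (congrFun e 1) 0
  simp [Matrix.mul_apply, Fin.sum_univ_two] at e'
  have h0 : M σ 1 0 = 0 := mul_left_cancel₀ h2 (by linear_combination -e')
  simpa [hM, LinearMap.toMatrix_apply] using h0

/-- The trace of an odd irreducible representation is not `1 + det`. -/
theorem exists_trace_ne_one_add_det (h2 : (2 : k) ≠ 0) (hc : c * c = 1)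
    (hdet : LinearMap.det (ρ.ρ c) = -1) (hirr : ρ.IsIrreducible) :
    ∃ σ : GQ, LinearMap.trace k ρ.V (ρ.ρ σ) ≠ 1 + LinearMap.det (ρ.ρ σ) := by
  have hσ : ∀ σ, (LinearMap.det.comp ρ.ρ).toHomUnits σ = 1 → LinearMap.det (ρ.ρ σ) = 1 :=
    fun σ h => congrArg Units.val h
  obtain ⟨σ, h1, h⟩ := exists_trace_ne_two h2 hc hdet hirr _ hσ
  exact ⟨σ, by rwa [hσ σ h1, one_add_one_eq_two]⟩

end Fermat.Agent.EC.Rep
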